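import Fermat.Agent.LevelLowering.Avoid.Final
import Fermat.Agent.LevelLowering.Away.AdmissibleReduction
import Fermat.Agent.LevelLowering.FreyDescent
import Fermat.Agent.LevelLowering.Residual.Frey
import Fermat.Agent.AtP.GlueInput
import Fermat.Agent.LevelTwo.Descent

/-!
# Level lowering for the Frey curve

The general steps specialise to the Frey curve: Mazur's principle away from `p`, and Ihara
avoidance, which together with Mazur's principle at `p` lower it to level `2`.
-/

set_option autoImplicit false

noncomputable section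

open WeierstrassCurve WeierstrassCurve.Affine.Point

namespace Fermat.Agent.LevelLowering.Glue

variable (P : FreyPackage)

theorem freyPrime_ne_two : P.p ≠ 2 := by
  have := P.hp5
  omega

/-- Away from `p`, the torsion of the Frey model is ramified exactly at `2`. -/
theorem torsionUnramified_frey_iff [Fact P.p.Prime] {q : ℕ} (hq : q.Prime) (hqp : q ≠ P.p) :
    TorsionUnramified P.freyCurveInt P.p q ↔ q ≠ 2 := by
  rw [Avoid.torsionUnramified_iff (FreyModel.freyCurveInt_Δ_ne_zero P),
    Lifting.residualRep_isUnramifiedAt_iff P.freyCurveInt (FreyModel.freyCurveInt_Δ_ne_zero P) P.p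
      (FreyModel.freyCurveInt_isSemistableModel P) (freyPrime_ne_two P) hq hqp,
    Residual.ramifiedPrimes_frey, Finset.mem_singleton]

theorem torsionFrobeniusScalar_frey_iff (q : ℕ) :
    TorsionFrobeniusScalar P.freyCurveInt P.p q ↔ FrobeniusScalar P q := by
  suffices h : ∀ E : WeierstrassCurve ℚ, E = P.freyCurve →
      ((∀ A : ValuationSubring (AlgebraicClosure ℚ), A.LiesOverPrime q →
        ∀ σ : AlgebraicClosure ℚ ≃ₐ[ℚ] AlgebraicClosure ℚ, A.IsFrobeniusAt σ q →
          ∃ c : ZMod P.p, galoisRepModuleEnd (K := AlgebraicClosure ℚ) ℚ E P.p σ = c • 1) ↔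
        FrobeniusScalar P q) from h _ (FreyModel.map_freyCurveInt P)
  rintro E rfl
  exact Iff.rfl

/-- Mazur's principle for semistable curves gives it for the Frey curve. -/
theorem mazurAway_of_removeAway (h : RemoveAway P.freyCurveInt P.p) : MazurAway P := by
  intro hirr M q hsq hq hq2 hqp hmod
  haveI : Fact P.p.Prime := ⟨P.pp⟩
  exact (h (Residual.modRepIsIrreducible_of_irreducible P hirr) M q hsq hq hqp
    ((torsionUnramified_frey_iff P hq hqp).2 hq2) hmod).imp_right
    fun h' => ⟨h'.1, (torsionFrobeniusScalar_frey_iff P q).1 h'.2⟩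

/-- Ihara avoidance for the Frey curve. -/
theorem iharaAvoidance : IharaAvoidance P := by
  intro hirr Q hQ hmod
  haveI : Fact P.p.Prime := ⟨P.pp⟩
  have hp2 := freyPrime_ne_two P
  have hnot : ¬ P.p ∣ 2 := fun h => hp2 ((Nat.prime_dvd_prime_iff_eq P.pp Nat.prime_two).1 h)
  refine Avoid.removeExceptional_semistable P.freyCurveInt P.p
    (FreyModel.freyCurveInt_Δ_ne_zero P) (FreyModel.freyCurveInt_isSemistableModel P) hp2
    (Residual.modRepIsIrreducible_of_irreducible P hirr) 2 Q Nat.prime_two.squarefree
    (fun q hq hqp h => ?_) (fun h => absurd h hnot) (fun q hq => ?_) hmod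
  · obtain ⟨hq', hd, -⟩ := Nat.mem_primeFactors.1 hq
    exact (torsionUnramified_frey_iff P hq' hqp).1 h
      ((Nat.prime_dvd_prime_iff_eq hq' Nat.prime_two).1 hd)
  · obtain ⟨hq', hq2, hqp, h1, hs⟩ := hQ q hq
    exact ⟨⟨hq', hqp, h1, (torsionUnramified_frey_iff P hq' hqp).2 hq2,
      (torsionFrobeniusScalar_frey_iff P q).2 hs⟩,
      fun h => hq2 ((Nat.prime_dvd_prime_iff_eq hq' Nat.prime_two).1 h)⟩

/-- No eigenform at a conductor level has the Frey representation, given Mazur's principle away
from `p` at admissible levels. -/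
theorem lowerAtOddPrime_of_core
    (hcore : ∀ P : FreyPackage, Away.Core P.freyCurveInt P.p) (P : FreyPackage) :
    LevelTwo.RemovesOddPrimes P :=
  fun {_ _} hcond _ _ _ _ hirr hmod _ =>
    haveI : Fact P.p.Prime := ⟨P.pp⟩
    absurd hmod (not_modularRepOfLevel P hirr
      (mazurAway_of_removeAway P (Away.removeAway_of_core (FreyModel.freyCurveInt_Δ_ne_zero P)
        (FreyModel.freyCurveInt_isSemistableModel P) (freyPrime_ne_two P) (hcore P)
        fun h => absurd h (by have := P.hp5; omega)))
      (AtP.mazurAtP P) (iharaAvoidance P) hcond)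

end Fermat.Agent.LevelLowering.Glue
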